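/-
S56 marathon, WP5 of the Euler characteristic block (helper8), file 8: **the abstract `H²`-end**.
From an exact sequence `0 → C¹ → E² → J² → C² → E³` of `R`-modules with `C¹` uniquely `p`-divisible, `E²`
`p`-divisible, `E³[p] = 0` and `J²[p]` finite: `E²` is `PGood` and `δ_ψ(E²) = ψ(J²[p]) − ψ(C²[p])`.
-/
import Mathlib
import Fermat.Agent.S56lib.Euler.SixTerm

set_option autoImplicit false
set_option linter.unusedSectionVars false
set_option linter.style.haveILetI false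

noncomputable section

namespace Fermat.Agent.S56lib.PT9.T2G

open Fermat.Agent.S56lib.Euler Function

variable {R : Type} [Ring R] {p : ℕ} {C1 E2 J2 C2 E3 : Type} [AddCommGroup C1] [Module R C1]
  [AddCommGroup E2] [Module R E2] [AddCommGroup J2] [Module R J2] [AddCommGroup C2] [Module R C2]
  [AddCommGroup E3] [Module R E3]
  (d1 : C1 →ₗ[R] E2) (f : E2 →ₗ[R] J2) (g : J2 →ₗ[R] C2) (d2 : C2 →ₗ[R] E3)
  (hd1 : Injective d1) (h1 : Exact d1 f) (h2 : Exact f g) (h3 : Exact g d2)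
  (hC1t : ∀ c : C1, p • c = 0 → c = 0) (hC1d : ∀ c : C1, ∃ c', p • c' = c)
  (hE2d : ∀ e : E2, ∃ e', p • e' = e) (hE3 : ∀ x : E3, p • x = 0 → x = 0)

include hd1 h1 hC1t in
lemma torsMap_f_injective : Injective (torsMap (p := p) f) := by
  rw [injective_iff_map_eq_zero]
  intro x hx
  have hx' : f x.1 = 0 := congrArg Subtype.val hx
  obtain ⟨c, hc⟩ := (h1 _).1 hx'
  have hpc : d1 (p • c) = 0 := by rw [map_nsmul, hc, mem_tors.1 x.2]
  have hc0 : c = 0 := hC1t c (hd1 (hpc.trans (map_zero d1).symm))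
  apply Subtype.ext
  rw [← hc, hc0, map_zero]
  rfl

include h1 h2 hC1d in
lemma torsMap_fg_exact : Exact (torsMap (p := p) f) (torsMap (p := p) g) := by
  intro j
  constructor
  · intro hj
    have hj' : g j.1 = 0 := congrArg Subtype.val hj
    obtain ⟨e, he⟩ := (h2 _).1 hj'
    have hpe : f (p • e) = 0 := by rw [map_nsmul, he, mem_tors.1 j.2]
    obtain ⟨c, hc⟩ := (h1 _).1 hpe
    obtain ⟨c', rfl⟩ := hC1d c
    refine ⟨⟨e - d1 c', ?_⟩, ?_⟩
    · rw [mem_tors, smul_sub, ← hc, map_nsmul, sub_self]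
    · apply Subtype.ext
      show f (e - d1 c') = j.1
      rw [map_sub, he, (h1 _).2 ⟨c', rfl⟩, sub_zero]
  · rintro ⟨e, rfl⟩
    apply Subtype.ext
    show g (f e.1) = 0
    exact (h2 _).2 ⟨e.1, rfl⟩

include h2 h3 hE2d hE3 in
lemma torsMap_g_surjective : Surjective (torsMap (p := p) g) := by
  intro c
  have hc0 : d2 c.1 = 0 := hE3 _ (by rw [← map_nsmul, mem_tors.1 c.2, map_zero])
  obtain ⟨j, hj⟩ := (h3 _).1 hc0
  have hpj : g (p • j) = 0 := by rw [map_nsmul, hj, mem_tors.1 c.2]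
  obtain ⟨e, he⟩ := (h2 _).1 hpj
  obtain ⟨e', rfl⟩ := hE2d e
  refine ⟨⟨j - f e', ?_⟩, ?_⟩
  · rw [mem_tors, smul_sub, ← he, map_nsmul, sub_self]
  · apply Subtype.ext
    show g (j - f e') = c.1
    rw [map_sub, hj, (h2 _).2 ⟨e', rfl⟩, sub_zero]

include hd1 h1 h2 h3 hC1t hC1d hE2d hE3 in
/-- **the abstract `H²`-end** -/
theorem delta_of_les [Finite (tors R p J2)] :
    PGood R p E2 ∧ ∀ ψ : AddInvariant R p,
      delta R p E2 ψ = ψ.val (tors R p J2) - ψ.val (tors R p C2) := by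
  haveI : IsPFin p (tors R p J2) := ⟨inferInstance, fun v => Subtype.ext v.2⟩
  have hinj := torsMap_f_injective (p := p) d1 f hd1 h1 hC1t
  haveI : Subsingleton (Cot R p E2) := by
    refine ⟨fun a b => ?_⟩
    obtain ⟨a, rfl⟩ := Submodule.Quotient.mk_surjective _ a
    obtain ⟨b, rfl⟩ := Submodule.Quotient.mk_surjective _ b
    rw [cot_mk_eq_zero.2 (hE2d a), cot_mk_eq_zero.2 (hE2d b)]
  refine ⟨⟨Finite.of_injective _ hinj, inferInstance⟩, fun ψ => ?_⟩
  have h := ψ.add (tors R p E2) (tors R p J2) (tors R p C2) (torsMap f) (torsMap g) hinj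
    (torsMap_g_surjective f g d2 h2 h3 hE2d hE3) (torsMap_fg_exact d1 f g h1 h2 hC1d)
  unfold delta
  rw [ψ.eq_zero_of_subsingleton (Cot R p E2)]
  omega

end Fermat.Agent.S56lib.PT9.T2G
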