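/-
S56 marathon, WP5 of the Euler characteristic block (helper8), file 3: **`Fun(Γ, Y) ≅ Hom(ℤ[Γ], Y)`** and the
change of topology.  `permP π : Rep k G` is the permutation representation `k[Γ]` through `π : G →* Γ`;
`homRep (Rep.res r (permP π)) Y ≅ funG (π.comp r) Y` (`toFunG`, `ofFunG`).  Consequently helper7's
`PT9a.hcoarse` / `h90_homP` give, for the local groups `G_q` with their two topologies:
`coarsen_funG_injective` and `coarsen_funG_surjective_tors` on `H²(G_q, Fun(Γ, ℚ̄_qˣ))`.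
-/
import Mathlib
import Fermat.Agent.S56lib.Euler.CohMod
import Fermat.Agent.S56lib.PT9a.PhiJ2

set_option autoImplicit false
set_option linter.unusedSectionVars false

noncomputable section

namespace Fermat.Agent.S56lib.PT9.T2G

open Fermat.Agent.S55lib Fermat.Agent.S56lib.Euler CategoryTheory Function

section Perm

variable {k G Γ : Type} [CommRing k] [Group G] [Group Γ] (π : G →* Γ)

/-- the permutation representation on `k[Γ]` through `π` -/
def permRepOf : Representation k G (Γ →₀ k) where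
  toFun g := Finsupp.lmapDomain k k (fun x => π g * x)
  map_one' := by
    apply Finsupp.lhom_ext'
    intro x
    apply LinearMap.ext
    intro c
    simp
  map_mul' g h := by
    apply Finsupp.lhom_ext'
    intro x
    apply LinearMap.ext
    intro c
    simp [mul_assoc]

/-- `k[Γ]` as a representation of `G` -/
abbrev permP : Rep.{0} k G := Rep.of (permRepOf (k := k) π)

lemma permP_ρ_single (g : G) (x : Γ) (c : k) :
    (permP (k := k) π).ρ g (Finsupp.single x c) = Finsupp.single (π g * x) c := by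
  show Finsupp.lmapDomain k k (fun x => π g * x) (Finsupp.single x c) = _
  simp

lemma permP_isSm (𝒰 : OpenBasis G) (hker : 𝒰.IsOpen π.ker) : IsSm 𝒰 (permP (k := k) π) := by
  intro a
  obtain ⟨U, hU, hle⟩ := hker
  refine ⟨U, hU, fun s hs => ?_⟩
  have hs1 : π s = 1 := MonoidHom.mem_ker.1 (hle hs)
  show Finsupp.lmapDomain k k (fun x => π s * x) a = a
  have : (fun x : Γ => π s * x) = id := by
    funext x
    rw [hs1, one_mul]
    rfl
  rw [this, Finsupp.lmapDomain_id]
  rfl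

variable {D : Type} [Group D] (r : D →* G) (Y : Rep.{0} k D)

/-- `Fun(Γ, Y) ≃ Hom(k[Γ], Y)`, linearly -/
def bridgeLin : (Γ → Y) ≃ₗ[k] ((Γ →₀ k) →ₗ[k] Y) := Finsupp.llift Y k k Γ

lemma bridgeLin_symm_apply (φ : (Γ →₀ k) →ₗ[k] Y) (x : Γ) :
    (bridgeLin (Γ := Γ) Y).symm φ x = φ (Finsupp.single x 1) := rfl

lemma bridgeLin_symm_ρ (d : D) (φ : (Γ →₀ k) →ₗ[k] Y) :
    (bridgeLin (Γ := Γ) Y).symm ((homRep (Rep.res r (permP (k := k) π)) Y).ρ d φ) =
      (funG (π.comp r) Y).ρ d ((bridgeLin (Γ := Γ) Y).symm φ) := by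
  funext x
  show Y.ρ d (φ ((permP (k := k) π).ρ (r d⁻¹) (Finsupp.single x 1))) =
    Y.ρ d (φ (Finsupp.single ((π (r d))⁻¹ * x) 1))
  rw [permP_ρ_single, map_inv, map_inv]

/-- `Hom(k[Γ], Y) ⟶ Fun(Γ, Y)` -/
def toFunG : homRep (Rep.res r (permP (k := k) π)) Y ⟶ funG (π.comp r) Y :=
  Rep.ofHom
    { toLinearMap := (bridgeLin (Γ := Γ) Y).symm.toLinearMap
      isIntertwining' := fun d => by
        apply LinearMap.ext
        intro φ
        exact bridgeLin_symm_ρ π r Y d φ }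

/-- `Fun(Γ, Y) ⟶ Hom(k[Γ], Y)` -/
def ofFunG : funG (π.comp r) Y ⟶ homRep (Rep.res r (permP (k := k) π)) Y :=
  Rep.ofHom
    { toLinearMap := (bridgeLin (Γ := Γ) Y).toLinearMap
      isIntertwining' := fun d => by
        apply LinearMap.ext
        intro f
        apply (bridgeLin (Γ := Γ) Y).symm.injective
        show (bridgeLin (Γ := Γ) Y).symm ((bridgeLin (Γ := Γ) Y) ((funG (π.comp r) Y).ρ d f)) =
          (bridgeLin (Γ := Γ) Y).symm ((homRep (Rep.res r (permP (k := k) π)) Y).ρ d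
            ((bridgeLin (Γ := Γ) Y) f))
        rw [bridgeLin_symm_ρ, LinearEquiv.symm_apply_apply, LinearEquiv.symm_apply_apply] }

lemma toFunG_ofFunG (f : funG (π.comp r) Y) : (toFunG π r Y).hom ((ofFunG π r Y).hom f) = f :=
  (bridgeLin (Γ := Γ) Y).symm_apply_apply f

lemma ofFunG_toFunG (φ : homRep (Rep.res r (permP (k := k) π)) Y) :
    (ofFunG π r Y).hom ((toFunG π r Y).hom φ) = φ :=
  (bridgeLin (Γ := Γ) Y).apply_symm_apply φ

end Perm

/-! ### Naturality of the change of topology -/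

section Coarsen

variable {k G : Type} [CommRing k] [Group G] {𝒰 𝒱 : OpenBasis G} (h : Csm.Coarser 𝒰 𝒱)
  {A B : Rep.{0} k G} (f : A ⟶ B)

lemma coarsen_map (n : ℕ) (x : Hsm 𝒰 A n) :
    (Csm.coarsen h B).mapH n (cohMap 𝒰 f n x) = cohMap 𝒱 f n ((Csm.coarsen h A).mapH n x) := by
  obtain ⟨x0, hx0, rfl⟩ := (Csm 𝒰 A).exists_rep x
  rfl

end Coarsen

/-! ### The local groups -/

section Local

variable (S : Finset Nat.Primes) {p : ℕ} [hp : Fact p.Prime] {Γ : Type} [Group Γ] [Finite Γ]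
  (π : GQ →* Γ) (q : Nat.Primes)

/-- the coefficient module `Fun(Γ, ℚ̄_qˣ)` of `G_q` -/
abbrev FY : Rep.{0} ℤ (Gloc q) := funG (π.comp (rloc q)) (Yloc q)

instance : Module.Finite ℤ (permP (k := ℤ) π) := inferInstanceAs (Module.Finite ℤ (Γ →₀ ℤ))

instance : Module.Free ℤ (permP (k := ℤ) π) := inferInstanceAs (Module.Free ℤ (Γ →₀ ℤ))

variable (hker : (basisS S).IsOpen π.ker)

include hker in
/-- **`H²(G_q, Fun(Γ, ℚ̄_qˣ))` for the `G_S`-topology injects into the one for the full topology** -/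
theorem coarsen_funG_injective :
    Injective ((Csm.coarsen (coarser_basisLoc S q) (FY π q)).mapH 2) := by
  have hinj := Csm.coarsen_H2_injective (coarser_basisLoc S q)
    (homRep (Rep.res (rloc q) (permP (k := ℤ) π)) (Yloc q))
    (PT9a.h90_homP S q (permP_isSm π (basisS S) hker) inferInstance inferInstance)
  rw [injective_iff_map_eq_zero]
  intro x hx
  have h1 := coarsen_map (coarser_basisLoc S q) (ofFunG π (rloc q) (Yloc q)) 2 x
  rw [hx, map_zero] at h1
  have h2 := hinj (h1.trans (map_zero _).symm)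
  have h3 := cohMap_comp ((basisS S).comap (rloc q)) (ofFunG π (rloc q) (Yloc q))
    (toFunG π (rloc q) (Yloc q)) (𝟙 _) (fun f => (toFunG_ofFunG π (rloc q) (Yloc q) f).symm) 2 x
  rw [h2, map_zero] at h3
  rw [← cohMap_id _ (𝟙 _) (fun _ => rfl) 2 x]
  exact h3.symm

include hker in
/-- **the `p`-torsion of `H²(G_q, Fun(Γ, ℚ̄_qˣ))` comes from the `G_S`-topology** (`p` odd, `p ∈ S`) -/
theorem coarsen_funG_surjective_tors (hp2 : p ≠ 2) (hpS : (⟨p, hp.out⟩ : Nat.Primes) ∈ S)
    (w : Hsm (basisLoc q) (FY π q) 2) (hw : p • w = 0) :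
    ∃ w' : Hsm ((basisS S).comap (rloc q)) (FY π q) 2,
      (Csm.coarsen (coarser_basisLoc S q) (FY π q)).mapH 2 w' = w ∧ p • w' = 0 := by
  have hw2 : p • cohMap (basisLoc q) (ofFunG π (rloc q) (Yloc q)) 2 w = 0 := by
    rw [← map_nsmul, hw, map_zero]
  obtain ⟨w₀, hw₀⟩ := PT9a.hcoarse S q hp2 hpS (permP_isSm π (basisS S) hker) inferInstance
    inferInstance _ hw2
  have h1 := coarsen_map (coarser_basisLoc S q) (toFunG π (rloc q) (Yloc q)) 2 w₀
  rw [hw₀] at h1
  have h2 := cohMap_comp (basisLoc q) (ofFunG π (rloc q) (Yloc q))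
    (toFunG π (rloc q) (Yloc q)) (𝟙 _) (fun f => (toFunG_ofFunG π (rloc q) (Yloc q) f).symm) 2 w
  rw [h2, cohMap_id _ (𝟙 _) (fun _ => rfl) 2 w] at h1
  refine ⟨_, h1, ?_⟩
  apply coarsen_funG_injective S π q hker
  rw [map_nsmul, h1, hw, map_zero]

end Local

end Fermat.Agent.S56lib.PT9.T2G
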