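/-
S56 marathon, WP5 of the Euler characteristic block (helper8), file 2: **`Fun(Γ, Y)` for a non-surjective
`π' : D →* Γ`**.  With `Δ = range π'`, `π'' : D ↠ Δ`, `V = ker π''`:
* `rho π' Y γ : Fun(Γ, Y) ⟶ Fun(Δ, Y)`, `(ρ_γ f)(d) = f(d γ⁻¹)`, with `ρ_γ ∘ rt_δ = ρ_{δ⁻¹γ}` and
  `ρ_{γ d₀} = rt_{d₀⁻¹} ∘ ρ_γ`;
* `cosetCoind` : `Fun(Γ, Y)` is the smooth coinduction of `Y|_V` over the cosets `Γ/Δ`;
* `sh_cosetCoind` : the Shapiro map at the coset `x` is `shV ∘ Hⁿ(ρ_{s x})` (`s x` the chosen representative).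
-/
import Mathlib
import Fermat.Agent.S56lib.Euler.ShapiroG

set_option autoImplicit false
set_option linter.unusedSectionVars false

noncomputable section

namespace Fermat.Agent.S56lib.PT9.T2G

open Fermat.Agent.S55lib Fermat.Agent.S56lib.Euler CategoryTheory Function

variable {k D Γ : Type} [CommRing k] [Group D] [Group Γ] (π' : D →* Γ) (Y : Rep.{0} k D)

/-- `ρ_γ : Fun(Γ, Y) ⟶ Fun(Δ, Y)`, `(ρ_γ f)(d) = f(d γ⁻¹)` -/
def rho (γ : Γ) : funG π' Y ⟶ funG π'.rangeRestrict Y :=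
  Rep.ofHom
    { toLinearMap :=
        { toFun := fun f d => (f : Γ → Y) ((d : Γ) * γ⁻¹)
          map_add' := fun f f' => rfl
          map_smul' := fun c f => rfl }
      isIntertwining' := fun g => by
        apply LinearMap.ext
        intro f
        funext d
        show Y.ρ g ((f : Γ → Y) ((π' g)⁻¹ * ((d : Γ) * γ⁻¹))) =
          Y.ρ g ((f : Γ → Y) ((((π'.rangeRestrict g)⁻¹ * d : π'.range) : Γ) * γ⁻¹))
        have e : (((π'.rangeRestrict g)⁻¹ * d : π'.range) : Γ) = (π' g)⁻¹ * (d : Γ) := rfl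
        rw [e, mul_assoc] }

@[simp] lemma rho_apply (γ : Γ) (f : Γ → Y) (d : π'.range) :
    ((rho π' Y γ).hom f : π'.range → Y) d = f ((d : Γ) * γ⁻¹) := rfl

lemma rho_rt (γ δ : Γ) (f : funG π' Y) :
    (rho π' Y γ).hom ((funG.rt π' Y δ).hom f) = (rho π' Y (δ⁻¹ * γ)).hom f := by
  funext d
  show (f : Γ → Y) ((d : Γ) * γ⁻¹ * δ) = (f : Γ → Y) ((d : Γ) * (δ⁻¹ * γ)⁻¹)
  rw [mul_inv_rev, inv_inv, mul_assoc]

lemma rho_mul_range (γ : Γ) (d₀ : π'.range) (f : funG π' Y) :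
    (rho π' Y (γ * d₀)).hom f =
      (funG.rt π'.rangeRestrict Y d₀⁻¹).hom ((rho π' Y γ).hom f) := by
  funext d
  show (f : Γ → Y) ((d : Γ) * (γ * (d₀ : Γ))⁻¹) = (f : Γ → Y) (((d * d₀⁻¹ : π'.range) : Γ) * γ⁻¹)
  rw [mul_inv_rev, ← mul_assoc]
  rfl

/-! ### The coinduction over the cosets -/

lemma mem_ker_rangeRestrict {v : D} : v ∈ π'.rangeRestrict.ker ↔ π' v = 1 := by
  rw [MonoidHom.ker_rangeRestrict, MonoidHom.mem_ker]

/-- the chosen representative of a coset -/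
def crep (x : Γ ⧸ π'.range) : Γ := Quotient.out x

lemma mk_crep (x : Γ ⧸ π'.range) : (QuotientGroup.mk (crep π' x) : Γ ⧸ π'.range) = x :=
  QuotientGroup.out_eq' x

/-- evaluation at the inverse of the representative of a coset -/
def cosetEv (x : Γ ⧸ π'.range) :
    Rep.res π'.rangeRestrict.ker.subtype (funG π' Y) ⟶ Rep.res π'.rangeRestrict.ker.subtype Y :=
  Rep.ofHom
    { toLinearMap :=
        { toFun := fun f => (f : Γ → Y) (crep π' x)⁻¹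
          map_add' := fun f f' => rfl
          map_smul' := fun c f => rfl }
      isIntertwining' := fun v => by
        apply LinearMap.ext
        intro f
        show Y.ρ v.1 ((f : Γ → Y) ((π' v.1)⁻¹ * (crep π' x)⁻¹)) = Y.ρ v.1 ((f : Γ → Y) (crep π' x)⁻¹)
        rw [(mem_ker_rangeRestrict π').1 v.2, inv_one, one_mul] }

@[simp] lemma cosetEv_apply (x : Γ ⧸ π'.range) (f : Γ → Y) :
    (cosetEv π' Y x).hom f = f (crep π' x)⁻¹ := rfl

lemma cosetEv_eq (x : Γ ⧸ π'.range) (f : funG π' Y) :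
    (cosetEv π' Y x).hom f = (funG.ev π'.rangeRestrict Y).hom ((rho π' Y (crep π' x)).hom f) := by
  show (f : Γ → Y) (crep π' x)⁻¹ = (f : Γ → Y) (((1 : π'.range) : Γ) * (crep π' x)⁻¹)
  rw [OneMemClass.coe_one, one_mul]

/-- every element of `Γ` is `π'(g)⁻¹ (s x)⁻¹` -/
lemma exists_eq_inv_mul (y : Γ) :
    ∃ g : D, y = (π' g)⁻¹ * (crep π' (QuotientGroup.mk y⁻¹))⁻¹ := by
  have h := mk_crep π' (QuotientGroup.mk y⁻¹ : Γ ⧸ π'.range)
  rw [QuotientGroup.eq] at h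
  obtain ⟨g, hg⟩ := h
  refine ⟨g, ?_⟩
  rw [hg]
  group

variable (𝒱 : OpenBasis D)

/-- **`Fun(Γ, Y)` is the smooth coinduction of `Y|_V` over the cosets `Γ/Δ`** -/
def cosetCoind [Finite Γ] (hker : 𝒱.IsOpen π'.ker) (hY : IsSm 𝒱 Y) :
    SmCoind 𝒱 (fun _ : Γ ⧸ π'.range => ↥π'.rangeRestrict.ker)
      (fun _ => π'.rangeRestrict.ker.subtype)
      (fun _ => Rep.res π'.rangeRestrict.ker.subtype Y) (funG π' Y) where
  ev := cosetEv π' Y
  sm := funG.isSm π' Y 𝒱 hker hY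
  inj := by
    intro (f : Γ → Y) h
    funext y
    obtain ⟨g, hg⟩ := exists_eq_inv_mul π' y
    have h1 := h (QuotientGroup.mk y⁻¹) g
    have h2 : Y.ρ g (f ((π' g)⁻¹ * (crep π' (QuotientGroup.mk y⁻¹))⁻¹)) = 0 := h1
    rw [← hg] at h2
    have h3 := congrArg (Y.ρ g⁻¹) h2
    rw [map_zero, ← Module.End.mul_apply, ← map_mul, inv_mul_cancel, map_one] at h3
    exact h3
  surj := by
    intro Φ hΦ _
    choose gy hgy using exists_eq_inv_mul π'
    refine ⟨fun y => Y.ρ (gy y)⁻¹ (Φ (QuotientGroup.mk y⁻¹) (gy y)), fun x g => ?_⟩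
    show Y.ρ g (Y.ρ (gy ((π' g)⁻¹ * (crep π' x)⁻¹))⁻¹
      (Φ (QuotientGroup.mk ((π' g)⁻¹ * (crep π' x)⁻¹)⁻¹) (gy ((π' g)⁻¹ * (crep π' x)⁻¹)))) = Φ x g
    set y := (π' g)⁻¹ * (crep π' x)⁻¹ with hy
    have hx : (QuotientGroup.mk y⁻¹ : Γ ⧸ π'.range) = x := by
      have hmem : π' g ∈ π'.range := ⟨g, rfl⟩
      rw [hy, mul_inv_rev, inv_inv, inv_inv, QuotientGroup.mk_mul_of_mem _ hmem, mk_crep]
    have h1 := hgy y
    rw [hx] at h1 ⊢
    -- `π' (gy y) = π' g`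
    have h2 : π' (gy y) = π' g := by
      have : (π' g)⁻¹ * (crep π' x)⁻¹ = (π' (gy y))⁻¹ * (crep π' x)⁻¹ := hy.symm.trans h1
      have := mul_right_cancel this
      exact (inv_injective this).symm
    have hv : g * (gy y)⁻¹ ∈ π'.rangeRestrict.ker := by
      rw [mem_ker_rangeRestrict, map_mul, map_inv, h2, mul_inv_cancel]
    have h3 := hΦ x ⟨g * (gy y)⁻¹, hv⟩ (gy y)
    have e : (π'.rangeRestrict.ker.subtype ⟨g * (gy y)⁻¹, hv⟩) * gy y = g := by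
      show g * (gy y)⁻¹ * gy y = g
      group
    rw [e] at h3
    rw [h3, ← Module.End.mul_apply, ← map_mul]
    rfl

/-- **the Shapiro map at the coset `x` is `shV ∘ Hⁿ(ρ_{s x})`** -/
lemma sh_cosetCoind {D : Type} [Group D] (π' : D →* Γ) (Y : Rep.{0} ℤ D) (𝒱 : OpenBasis D)
    [Finite Γ] (hker : 𝒱.IsOpen π'.ker) (hY : IsSm 𝒱 Y)
    (hker' : 𝒱.IsOpen π'.rangeRestrict.ker) (x : Γ ⧸ π'.range) (n : ℕ)
    (z : Hsm 𝒱 (funG π' Y) n) :
    ((cosetCoind π' Y 𝒱 hker hY).sh x).mapH n z =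
      shV π'.rangeRestrict_surjective hker' hY n (cohMap 𝒱 (rho π' Y (crep π' x)) n z) :=
  ((funG.smCoind π'.rangeRestrict Y 𝒱 π'.rangeRestrict_surjective hker' hY).sh_unit PUnit.unit
    (rho π' Y (crep π' x)) (cosetEv π' Y x) (fun f => (cosetEv_eq π' Y x f).symm) n z).symm

end Fermat.Agent.S56lib.PT9.T2G
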