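/-
S56 marathon, WP5 of the Euler characteristic block (helper8), file 5: **the local `H²`**.
`π' : G_q ↠ Δ` onto a finite group with open kernel: the `p`-torsion of `H²(G_q, Fun(Δ, ℚ̄_qˣ))` has `p`
elements (`card_pTor_LT`) and `Δ` acts trivially on it (`rt_eq_of_pTor`); `invLT` is an additive
isomorphism with `ℤ/p`.
-/
import Mathlib
import Fermat.Agent.S56lib.Euler.ShapiroG
import Fermat.Agent.S56lib.PT9.H2VLocal
import Fermat.Agent.S55lib.GlobDual.LocalFacts

set_option autoImplicit false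
set_option linter.unusedSectionVars false
set_option linter.style.haveILetI false

noncomputable section

namespace Fermat.Agent.S56lib.PT9.T2G

open Fermat.Agent.S55lib Fermat.Agent.S55lib.CFDual Fermat.Agent.S56lib.Euler CategoryTheory Function

variable (q : Nat.Primes) {p : ℕ} [hp : Fact p.Prime] {Δ : Type} [Group Δ] [Finite Δ]
  (π' : Gloc q →* Δ) (hπ' : Surjective π') (hker' : (basisLoc q).IsOpen π'.ker)

/-- `H²(G_q, Fun(Δ, ℚ̄_qˣ))` -/
abbrev LT : Type := Hsm (basisLoc q) (funG π' (Yloc q)) 2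

include hπ' hker' in
/-- **the `p`-torsion of the local `H²` has `p` elements** -/
theorem card_pTor_LT : Nat.card (PT.pTor p (LT q π')) = p := by
  refine (Nat.card_eq_of_bijective
    (fun y : PT.pTor p (LT q π') =>
      (⟨shV hπ' hker' (isSm_Yloc q) 2 y.1, by
        show p • shV hπ' hker' (isSm_Yloc q) 2 y.1 = 0
        rw [← map_nsmul, show p • y.1 = 0 from y.2, map_zero]⟩ :
        PT.pTor p (HV π' (basisLoc q) (Yloc q) 2))) ⟨?_, ?_⟩).trans
    (H2V.card_pTor_H2_loc q π'.ker hker' p)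
  · intro y y' h
    apply Subtype.ext
    exact shV_injective hπ' hker' (isSm_Yloc q) 2 (by omega) (congrArg Subtype.val h)
  · rintro ⟨z, hz⟩
    obtain ⟨y, rfl⟩ := shV_surjective hπ' hker' (isSm_Yloc q) 2 le_rfl z
    refine ⟨⟨y, ?_⟩, rfl⟩
    show p • y = 0
    apply shV_injective hπ' hker' (isSm_Yloc q) 2 (by omega)
    rw [map_nsmul, map_zero]
    exact hz

include hπ' hker' in
/-- **`Δ` acts trivially on the `p`-torsion of the local `H²`** -/
theorem rt_eq_of_pTor (y : LT q π') (hy : p • y = 0) (δ : Δ) :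
    cohMap (basisLoc q) (funG.rt π' (Yloc q) δ) 2 y = y := by
  have hy' : p • shV hπ' hker' (isSm_Yloc q) 2 y = 0 := by rw [← map_nsmul, hy, map_zero]
  obtain ⟨z, -, hz⟩ := H2V.H2_loc_exists_res q π'.ker hker' p _ ⟨1, by rw [pow_one]; exact hy'⟩
  have h := HMod.gsm_eq_of_res hπ' hker' (isSm_Yloc q) 2 (by omega)
    ((HMod.fn π' (basisLoc q) (Yloc q) 2).symm y) z
    (by rw [AddEquiv.apply_symm_apply]; exact hz.symm) δ
  have h2 := congrArg (HMod.fn π' (basisLoc q) (Yloc q) 2) h
  rw [HMod.fn_gsm, AddEquiv.apply_symm_apply] at h2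
  exact h2

include hπ' hker' in
lemma exists_invLT : Nonempty (PT.pTor p (LT q π') ≃+ ZMod p) := by
  have hc := card_pTor_LT q π' hπ' hker' (p := p)
  haveI : IsAddCyclic (PT.pTor p (LT q π')) := isAddCyclic_of_prime_card hc
  have e := zmodAddCyclicAddEquiv (G := PT.pTor p (LT q π')) inferInstance
  rw [hc] at e
  exact ⟨e.symm⟩

/-- an additive isomorphism of the `p`-torsion of the local `H²` with `ℤ/p` -/
def invLT : PT.pTor p (LT q π') ≃+ ZMod p := (exists_invLT q π' hπ' hker').some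

end Fermat.Agent.S56lib.PT9.T2G
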