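/-
S56 marathon, WP5 of the Euler characteristic block (helper8), file 4: **recognising a permutation module**.
A `ℤ[Γ]`-module `N` with additive functionals `lam q γ : N →+ 𝔽_p` (`q : Q`, `γ : Γ`) such that
`lam q γ (δ·c) = lam q (δ⁻¹γ) c`, `lam q (γ d) = lam q γ` for `d ∈ Δ q`, jointly injective and jointly surjective,
is isomorphic to the permutation module `𝔽_p[⊔_q Γ/Δ_q]` (`permIso`).
-/
import Mathlib
import Fermat.Agent.S56lib.Euler.PermSum

set_option autoImplicit false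
set_option linter.unusedSectionVars false

noncomputable section

namespace Fermat.Agent.S56lib.PT9.T2G

open Fermat.Agent.S56lib.Euler Function

variable {Γ : Type} [Group Γ] {Q : Type} (Δ : Q → Subgroup Γ) {N : Type} [AddCommGroup N]
  [Module (ZG Γ) N] {p : ℕ} (lam : ∀ _ : Q, Γ → N →+ ZMod p)
  (h1 : ∀ q γ δ c, lam q γ (gsm δ c) = lam q (δ⁻¹ * γ) c)
  (h2 : ∀ q γ (d : Γ), d ∈ Δ q → ∀ c, lam q (γ * d) c = lam q γ c)
  (h3 : ∀ c, (∀ q γ, lam q γ c = 0) → c = 0)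
  (h4 : ∀ u : (Σ q, Γ ⧸ Δ q) → ZMod p, ∃ c, ∀ q γ, lam q γ c = u ⟨q, QuotientGroup.mk γ⟩)

/-- the function on `⊔_q Γ/Δ_q` attached to `c` -/
def permFun (c : N) : (Σ q, Γ ⧸ Δ q) → ZMod p := fun x => lam x.1 (Quotient.out x.2) c

include h2 in
lemma permFun_mk (c : N) (q : Q) (γ : Γ) :
    permFun Δ lam c ⟨q, QuotientGroup.mk γ⟩ = lam q γ c := by
  show lam q (Quotient.out (QuotientGroup.mk γ : Γ ⧸ Δ q)) c = lam q γ c
  have h := QuotientGroup.out_eq' (QuotientGroup.mk γ : Γ ⧸ Δ q)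
  rw [QuotientGroup.eq] at h
  have e : γ = Quotient.out (QuotientGroup.mk γ : Γ ⧸ Δ q) *
      ((Quotient.out (QuotientGroup.mk γ : Γ ⧸ Δ q))⁻¹ * γ) := by group
  conv_rhs => rw [e]
  exact (h2 q _ _ h c).symm

/-- the additive map `N → 𝔽_p[⊔_q Γ/Δ_q]` -/
def permHom : N →+ PermMod Γ (ZMod p) (Σ q, Γ ⧸ Δ q) :=
  PermMod.fn.symm.toAddMonoidHom.comp
    { toFun := permFun Δ lam
      map_zero' := by
        funext x
        exact map_zero (lam x.1 (Quotient.out x.2))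
      map_add' := fun c c' => by
        funext x
        exact map_add (lam x.1 (Quotient.out x.2)) c c' }

lemma fn_permHom (c : N) (x : Σ q, Γ ⧸ Δ q) :
    PermMod.fn (permHom Δ lam c) x = permFun Δ lam c x := by
  unfold permHom
  simp

include h1 h2 in
lemma permHom_gsm (δ : Γ) (c : N) : permHom Δ lam (gsm δ c) = gsm δ (permHom Δ lam c) := by
  apply PermMod.ext
  rintro ⟨q, x⟩
  obtain ⟨γ, rfl⟩ := QuotientGroup.mk_surjective x
  rw [PermMod.fn_gsm, fn_permHom, fn_permHom, permFun_mk Δ lam h2, h1]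
  have e : δ⁻¹ • (⟨q, QuotientGroup.mk γ⟩ : Σ q, Γ ⧸ Δ q) = ⟨q, QuotientGroup.mk (δ⁻¹ * γ)⟩ := rfl
  rw [e, permFun_mk Δ lam h2]

include h2 h3 in
lemma permHom_injective : Injective (permHom Δ lam) := by
  rw [injective_iff_map_eq_zero]
  intro c hc
  apply h3
  intro q γ
  rw [← permFun_mk Δ lam h2, ← fn_permHom, hc, map_zero]
  rfl

include h2 h4 in
lemma permHom_surjective : Surjective (permHom Δ lam) := by
  intro u
  obtain ⟨c, hc⟩ := h4 (PermMod.fn u)
  refine ⟨c, ?_⟩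
  apply PermMod.ext
  rintro ⟨q, x⟩
  obtain ⟨γ, rfl⟩ := QuotientGroup.mk_surjective x
  rw [fn_permHom, permFun_mk Δ lam h2, hc]

/-- **the module is the permutation module** -/
def permIso : N ≃ₗ[ZG Γ] PermMod Γ (ZMod p) (Σ q, Γ ⧸ Δ q) :=
  equivOfComm
    (AddEquiv.ofBijective (permHom Δ lam)
      ⟨permHom_injective Δ lam h2 h3, permHom_surjective Δ lam h2 h4⟩)
    (fun δ c => permHom_gsm Δ lam h1 h2 δ c)

end Fermat.Agent.S56lib.PT9.T2G
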