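/-
S56 marathon, WP5 of the Euler characteristic block (helper8), file 6: **the semilocal `H²`**.
`π : G_S ↠ Γ` finite with open kernel, `J_S` the `S`-idèles.  For `q ∈ S`, `D_q = π(G_q) ≤ Γ`.  The maps
`comp q γ : H²(G_S, Fun(Γ, J_S)) → H²(G_q, Fun(D_q, ℚ̄_qˣ))` (Shapiro at `q`, change of topology, `ρ_γ`) identify the
`p`-torsion of `T²(J_Γ) = H²(G_S, Fun(Γ, J_S))` with the permutation module `𝔽_p[⊔_q Γ/D_q]` (`torsJIso`).
-/
import Mathlib
import Fermat.Agent.S56lib.PT9.T2G.FunCoind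
import Fermat.Agent.S56lib.PT9.T2G.Coset
import Fermat.Agent.S56lib.PT9.T2G.Bridge
import Fermat.Agent.S56lib.PT9.T2G.PermAbs
import Fermat.Agent.S56lib.PT9.T2G.Local
import Fermat.Agent.S56lib.PT9a.Shapiro2S

set_option autoImplicit false
set_option linter.unusedSectionVars false
set_option linter.style.haveILetI false

noncomputable section

namespace Fermat.Agent.S56lib.PT9.T2G

open Fermat.Agent.S55lib Fermat.Agent.S55lib.CFDual Fermat.Agent.S56lib.Euler CategoryTheory Function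

variable (S : Finset Nat.Primes) {p : ℕ} [hp : Fact p.Prime] {Γ : Type} [Group Γ] [Finite Γ]
  (π : GQ →* Γ) (hker : (basisS S).IsOpen π.ker)

/-- the local homomorphism `G_q → Γ` -/
abbrev piq (q : Nat.Primes) : Gloc q →* Γ := π.comp (rloc q)

/-- the decomposition group `D_q ≤ Γ` -/
abbrev Dq (q : Nat.Primes) : Subgroup Γ := (piq π q).range

/-- the surjection `G_q ↠ D_q` -/
abbrev piq' (q : Nat.Primes) : Gloc q →* Dq π q := (piq π q).rangeRestrict

include hker in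
lemma isOpen_ker_piq (q : Nat.Primes) : (basisLoc q).IsOpen (piq π q).ker := by
  obtain ⟨U, hU, hle⟩ := hker
  obtain ⟨V, hV, hVle⟩ := coarser_basisLoc S q (U.comap (rloc q)) ⟨U, hU, rfl⟩
  refine ⟨V, hV, fun v hv => ?_⟩
  rw [MonoidHom.mem_ker]
  exact MonoidHom.mem_ker.1 (hle (hVle hv))

include hker in
lemma isOpen_ker_piq' (q : Nat.Primes) : (basisLoc q).IsOpen (piq' π q).ker := by
  rw [MonoidHom.ker_rangeRestrict]
  exact isOpen_ker_piq S π hker q

lemma piq'_surjective (q : Nat.Primes) : Surjective (piq' π q) := (piq π q).rangeRestrict_surjective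

/-- `Fun(Γ, J_S)` as a smooth coinduction of the `Fun(Γ, ℚ̄_qˣ)` -/
def SJ : SmCoind (basisS S) (fun q : S => Gloc q.1) (fun q => rloc q.1)
    (fun q => funG (π.comp (rloc q.1)) (Yloc q.1)) (funG π (JSrep S)) :=
  funCoind π (jsCoind S) hker

/-- the local component at `(q, γ)` -/
def comp (q : S) (γ : Γ) :
    Hsm (basisS S) (funG π (JSrep S)) 2 →ₗ[ℤ] LT q.1 (piq' π q.1) :=
  (cohMap (basisLoc q.1) (rho (piq π q.1) (Yloc q.1) γ) 2) ∘ₗ
    ((Csm.coarsen (coarser_basisLoc S q.1) (FY π q.1)).mapH 2) ∘ₗ (((SJ S π hker).sh q).mapH 2)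

lemma comp_apply (q : S) (γ : Γ) (x : Hsm (basisS S) (funG π (JSrep S)) 2) :
    comp S π hker q γ x = cohMap (basisLoc q.1) (rho (piq π q.1) (Yloc q.1) γ) 2
      ((Csm.coarsen (coarser_basisLoc S q.1) (FY π q.1)).mapH 2 (((SJ S π hker).sh q).mapH 2 x)) :=
  rfl

/-- (C1) equivariance -/
lemma comp_rt (q : S) (γ δ : Γ) (x : Hsm (basisS S) (funG π (JSrep S)) 2) :
    comp S π hker q γ (cohMap (basisS S) (funG.rt π (JSrep S) δ) 2 x) =
      comp S π hker q (δ⁻¹ * γ) x := by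
  rw [comp_apply, comp_apply]
  have h1 := sh_funCoind_rt π (jsCoind S) hker δ q 2 x
  have h1' : ((SJ S π hker).sh q).mapH 2 (cohMap (basisS S) (funG.rt π (JSrep S) δ) 2 x) =
      cohMap ((basisS S).comap (rloc q.1)) (funG.rt (π.comp (rloc q.1)) (Yloc q.1) δ) 2
        (((SJ S π hker).sh q).mapH 2 x) := h1
  rw [h1', coarsen_map]
  exact cohMap_comp (basisLoc q.1) (funG.rt (piq π q.1) (Yloc q.1) δ)
    (rho (piq π q.1) (Yloc q.1) γ) (rho (piq π q.1) (Yloc q.1) (δ⁻¹ * γ))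
    (fun f => (rho_rt (piq π q.1) (Yloc q.1) γ δ f).symm) 2 _

/-- (C2) invariance under `D_q` on the `p`-torsion -/
lemma comp_mul_range (q : S) (γ : Γ) (d₀ : Γ) (hd₀ : d₀ ∈ Dq π q.1)
    (x : Hsm (basisS S) (funG π (JSrep S)) 2) (hx : p • x = 0) :
    comp S π hker q (γ * d₀) x = comp S π hker q γ x := by
  have h0 : p • comp S π hker q γ x = 0 := by rw [← map_nsmul, hx, map_zero]
  have h1 := rt_eq_of_pTor q.1 (piq' π q.1) (piq'_surjective π q.1) (isOpen_ker_piq' S π hker q.1)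
    (comp S π hker q γ x) h0 (⟨d₀, hd₀⟩ : Dq π q.1)⁻¹
  rw [← h1]
  rw [comp_apply, comp_apply]
  exact (cohMap_comp (basisLoc q.1) (rho (piq π q.1) (Yloc q.1) γ)
    (funG.rt (piq' π q.1) (Yloc q.1) (⟨d₀, hd₀⟩ : Dq π q.1)⁻¹)
    (rho (piq π q.1) (Yloc q.1) (γ * d₀))
    (fun f => rho_mul_range (piq π q.1) (Yloc q.1) γ ⟨d₀, hd₀⟩ f) 2 _).symm

/-- the coset coinduction at `q` -/
def CC (q : Nat.Primes) :
    SmCoind (basisLoc q) (fun _ : Γ ⧸ Dq π q => ↥(piq' π q).ker)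
      (fun _ => (piq' π q).ker.subtype)
      (fun _ => Rep.res (piq' π q).ker.subtype (Yloc q)) (funG (piq π q) (Yloc q)) :=
  cosetCoind (piq π q) (Yloc q) (basisLoc q) (isOpen_ker_piq S π hker q) (isSm_Yloc q)

lemma sh_CC (q : Nat.Primes) (c : Γ ⧸ Dq π q) (w : Hsm (basisLoc q) (funG (piq π q) (Yloc q)) 2) :
    ((CC S π hker q).sh c).mapH 2 w =
      shV (piq'_surjective π q) (isOpen_ker_piq' S π hker q) (isSm_Yloc q) 2
        (cohMap (basisLoc q) (rho (piq π q) (Yloc q) (crep (piq π q) c)) 2 w) :=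
  sh_cosetCoind (piq π q) (Yloc q) (basisLoc q) (isOpen_ker_piq S π hker q) (isSm_Yloc q)
    (isOpen_ker_piq' S π hker q) c 2 w

/-- (C3) joint injectivity -/
lemma comp_injective (x : Hsm (basisS S) (funG π (JSrep S)) 2)
    (h : ∀ (q : S) (γ : Γ), comp S π hker q γ x = 0) : x = 0 := by
  refine (SJ S π hker).sh_H2_injective x fun q => ?_
  apply coarsen_funG_injective S π q.1 hker
  rw [map_zero]
  refine (CC S π hker q.1).sh_H2_injective _ fun c => ?_
  rw [sh_CC]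
  have := h q (crep (piq π q.1) c)
  rw [comp_apply] at this
  rw [this, map_zero]

/-- (C4) joint surjectivity onto the `p`-torsion -/
lemma comp_surjective (hp2 : p ≠ 2) (hpS : (⟨p, hp.out⟩ : Nat.Primes) ∈ S)
    (t : ∀ q : S, Γ ⧸ Dq π q.1 → LT q.1 (piq' π q.1)) (ht : ∀ q c, p • t q c = 0) :
    ∃ x : Hsm (basisS S) (funG π (JSrep S)) 2, p • x = 0 ∧
      ∀ (q : S) (γ : Γ), comp S π hker q γ x = t q (QuotientGroup.mk γ) := by
  -- the local classes
  have hw : ∀ q : S, ∃ w : Hsm (basisLoc q.1) (funG (piq π q.1) (Yloc q.1)) 2, p • w = 0 ∧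
      ∀ c, cohMap (basisLoc q.1) (rho (piq π q.1) (Yloc q.1) (crep (piq π q.1) c)) 2 w = t q c := by
    intro q
    obtain ⟨w, hw⟩ := (CC S π hker q.1).sh_H2_surjective
      (fun c => shV (piq'_surjective π q.1) (isOpen_ker_piq' S π hker q.1) (isSm_Yloc q.1) 2 (t q c))
    have hw' : ∀ c, cohMap (basisLoc q.1) (rho (piq π q.1) (Yloc q.1) (crep (piq π q.1) c)) 2 w =
        t q c := fun c => by
      apply shV_injective (piq'_surjective π q.1) (isOpen_ker_piq' S π hker q.1) (isSm_Yloc q.1) 2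
        (by omega)
      rw [← sh_CC S π hker, hw c]
    refine ⟨w, ?_, hw'⟩
    refine (CC S π hker q.1).sh_H2_injective _ fun c => ?_
    rw [sh_CC, map_nsmul, hw' c, ht q c, map_zero]
  choose w hw0 hw using hw
  have hw' : ∀ q : S, ∃ w' : Hsm ((basisS S).comap (rloc q.1)) (FY π q.1) 2,
      (Csm.coarsen (coarser_basisLoc S q.1) (FY π q.1)).mapH 2 w' = w q ∧ p • w' = 0 := fun q =>
    coarsen_funG_surjective_tors S π q.1 hker hp2 hpS (w q) (hw0 q)
  choose w' hw'1 hw'0 using hw'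
  obtain ⟨x, hx⟩ := (SJ S π hker).sh_H2_surjective w'
  have hx0 : p • x = 0 := by
    refine (SJ S π hker).sh_H2_injective _ fun q => ?_
    rw [map_nsmul, hx q, hw'0 q]
  refine ⟨x, hx0, fun q γ => ?_⟩
  -- reduce to the representative
  have hγ : ∃ d₀ ∈ Dq π q.1, γ = crep (piq π q.1) (QuotientGroup.mk γ) * d₀ := by
    have h := mk_crep (piq π q.1) (QuotientGroup.mk γ : Γ ⧸ Dq π q.1)
    rw [QuotientGroup.eq] at h
    exact ⟨_, h, by group⟩
  obtain ⟨d₀, hd₀, e⟩ := hγ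
  conv_lhs => rw [e]
  rw [comp_mul_range S π hker q _ d₀ hd₀ x hx0, comp_apply, hx q, hw'1 q, hw q]

end Fermat.Agent.S56lib.PT9.T2G
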