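/-
S56 marathon, WP5 of the Euler characteristic block (helper8), file 9: **the `p`-torsion of `T²(J_Γ)`**
is the permutation module `𝔽_p[⊔_{q∈S} Γ/D_q]` (`torsJIso`).
-/
import Mathlib
import Fermat.Agent.S56lib.PT9.T2G.Semilocal

set_option autoImplicit false
set_option linter.unusedSectionVars false
set_option linter.style.haveILetI false

noncomputable section

namespace Fermat.Agent.S56lib.PT9.T2G

open Fermat.Agent.S55lib Fermat.Agent.S55lib.CFDual Fermat.Agent.S56lib.Euler CategoryTheory Function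

variable (S : Finset Nat.Primes) {p : ℕ} [hp : Fact p.Prime] {Γ : Type} [Group Γ] [Finite Γ]
  (π : GQ →* Γ) (hker : (basisS S).IsOpen π.ker)

/-- the `p`-torsion of `T²(J_Γ)` -/
abbrev NJ : Type := tors (ZG Γ) p (HMod π (basisS S) (JSrep S) 2)

/-- an additive map restricted to the `p`-torsion -/
def torRestrict {R X Y : Type} [Ring R] [AddCommGroup X] [Module R X] [AddCommGroup Y] (p : ℕ)
    (φ : X →+ Y) : tors R p X →+ PT.pTor p Y where
  toFun c := ⟨φ c.1, by
    show p • φ c.1 = 0
    rw [← map_nsmul, mem_tors.1 c.2, map_zero]⟩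
  map_zero' := Subtype.ext (map_zero φ)
  map_add' c c' := Subtype.ext (map_add φ c.1 c'.1)

lemma torRestrict_val {R X Y : Type} [Ring R] [AddCommGroup X] [Module R X] [AddCommGroup Y] (p : ℕ)
    (φ : X →+ Y) (c : tors R p X) : (torRestrict (R := R) p φ c).1 = φ c.1 := rfl

/-- the local component, on `T²(J_Γ)` -/
def compHom (q : S) (γ : Γ) : HMod π (basisS S) (JSrep S) 2 →+ LT q.1 (piq' π q.1) :=
  (comp S π hker q γ).toAddMonoidHom.comp (HMod.fn π (basisS S) (JSrep S) 2).toAddMonoidHom

lemma compHom_apply (q : S) (γ : Γ) (c : HMod π (basisS S) (JSrep S) 2) :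
    compHom S π hker q γ c = comp S π hker q γ (HMod.fn π (basisS S) (JSrep S) 2 c) := rfl

/-- the local component of a `p`-torsion class, in the `p`-torsion of the local `H²` -/
def compTor (q : S) (γ : Γ) : NJ S π (p := p) →+ PT.pTor p (LT q.1 (piq' π q.1)) :=
  torRestrict (R := ZG Γ) p (compHom S π hker q γ)

lemma compTor_val (q : S) (γ : Γ) (c : NJ S π (p := p)) :
    (compTor S π hker q γ c).1 = comp S π hker q γ (HMod.fn π (basisS S) (JSrep S) 2 c.1) := rfl

/-- the functionals -/
def lamJ (q : S) (γ : Γ) : NJ S π (p := p) →+ ZMod p :=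
  (invLT q.1 (piq' π q.1) (piq'_surjective π q.1) (isOpen_ker_piq' S π hker q.1)).toAddMonoidHom.comp
    (compTor S π hker q γ)

lemma lamJ_apply (q : S) (γ : Γ) (c : NJ S π (p := p)) :
    lamJ S π hker q γ c =
      invLT q.1 (piq' π q.1) (piq'_surjective π q.1) (isOpen_ker_piq' S π hker q.1)
        (compTor S π hker q γ c) := rfl

lemma compTor_gsm (q : S) (γ δ : Γ) (c : NJ S π (p := p)) :
    compTor S π hker q γ (gsm δ c) = compTor S π hker q (δ⁻¹ * γ) c := by
  apply Subtype.ext
  rw [compTor_val, compTor_val]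
  have e : (gsm δ c).1 = gsm δ c.1 := rfl
  rw [e, HMod.fn_gsm, comp_rt]

lemma compTor_mul_range (q : S) (γ d : Γ) (hd : d ∈ Dq π q.1) (c : NJ S π (p := p)) :
    compTor S π hker q (γ * d) c = compTor S π hker q γ c := by
  apply Subtype.ext
  rw [compTor_val, compTor_val]
  exact comp_mul_range S π hker q γ d hd _ (by rw [← map_nsmul, mem_tors.1 c.2, map_zero])

lemma compTor_injective (c : NJ S π (p := p)) (h : ∀ q γ, compTor S π hker q γ c = 0) : c = 0 := by
  apply Subtype.ext
  apply (HMod.fn π (basisS S) (JSrep S) 2).injective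
  rw [ZeroMemClass.coe_zero, map_zero]
  refine comp_injective S π hker _ fun q γ => ?_
  rw [← compTor_val, h q γ]
  rfl

/-- **the `p`-torsion of `T²(J_Γ)` is the permutation module `𝔽_p[⊔_q Γ/D_q]`** -/
def torsJIso (hp2 : p ≠ 2) (hpS : (⟨p, hp.out⟩ : Nat.Primes) ∈ S) :
    NJ S π (p := p) ≃ₗ[ZG Γ] PermMod Γ (ZMod p) (Σ q : S, Γ ⧸ Dq π q.1) :=
  permIso (fun q : S => Dq π q.1) (lamJ S π hker)
    (fun q γ δ c => by rw [lamJ_apply, lamJ_apply, compTor_gsm])
    (fun q γ d hd c => by rw [lamJ_apply, lamJ_apply, compTor_mul_range S π hker q γ d hd])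
    (fun c h => compTor_injective S π hker c fun q γ => by
      have := h q γ
      rw [lamJ_apply] at this
      exact (AddEquiv.map_eq_zero_iff _).1 this)
    (fun u => by
      obtain ⟨x, hx0, hx⟩ := comp_surjective S π hker hp2 hpS
        (fun q c => ((invLT q.1 (piq' π q.1) (piq'_surjective π q.1)
          (isOpen_ker_piq' S π hker q.1)).symm (u ⟨q, c⟩)).1)
        (fun q c => ((invLT q.1 (piq' π q.1) (piq'_surjective π q.1)
          (isOpen_ker_piq' S π hker q.1)).symm (u ⟨q, c⟩)).2)
      have hmem : (HMod.fn π (basisS S) (JSrep S) 2).symm x ∈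
          tors (ZG Γ) p (HMod π (basisS S) (JSrep S) 2) := by
        rw [mem_tors]
        apply (HMod.fn π (basisS S) (JSrep S) 2).injective
        rw [map_nsmul, AddEquiv.apply_symm_apply, hx0, map_zero]
      refine ⟨⟨(HMod.fn π (basisS S) (JSrep S) 2).symm x, hmem⟩, fun q γ => ?_⟩
      rw [lamJ_apply]
      have e : compTor S π hker q γ ⟨(HMod.fn π (basisS S) (JSrep S) 2).symm x, hmem⟩ =
          (invLT q.1 (piq' π q.1) (piq'_surjective π q.1)
            (isOpen_ker_piq' S π hker q.1)).symm (u ⟨q, QuotientGroup.mk γ⟩) := by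
        apply Subtype.ext
        rw [compTor_val]
        show comp S π hker q γ (HMod.fn π (basisS S) (JSrep S) 2
          ((HMod.fn π (basisS S) (JSrep S) 2).symm x)) = _
        rw [AddEquiv.apply_symm_apply, hx q γ]
      rw [e, AddEquiv.apply_symm_apply])

end Fermat.Agent.S56lib.PT9.T2G
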