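/-
S56 marathon, WP5 of the Euler characteristic block (helper8), file 10: **the global `H²`-end**.
`π : G_ℚ ↠ Γ` finite with kernel `U` open for the `G_S`-topology, `U` fixes `μ_p`, `p` odd, `p ∈ S`.
For `T²(E_Γ) = H²(G_S, Fun(Γ, 𝒪_S^×))`:
* `mulP_T2E_surjective` : it is `p`-divisible;
* `globalH2` : it is `PGood` and `δ_ψ(T²(E_Γ)) = Σ_{q∈S} ψ(𝔽_p[Γ/D_q]) − ψ(𝔽_p)`.
-/
import Mathlib
import Fermat.Agent.S56lib.PT9.T2G.TorsJ
import Fermat.Agent.S56lib.PT9.T2G.H3Glob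
import Fermat.Agent.S56lib.PT9.T2G.Abstract
import Fermat.Agent.S56lib.PT9.H2VGlobal
import Fermat.Agent.S56lib.Euler.Twist
import Fermat.Agent.S56lib.Euler.TrivMod
import Fermat.Agent.S55lib.GlobDual.ESFacts

set_option autoImplicit false
set_option linter.unusedSectionVars false
set_option linter.style.haveILetI false

noncomputable section

namespace Fermat.Agent.S56lib.PT9.T2G

open Fermat.Agent.S55lib Fermat.Agent.S55lib.CFDual Fermat.Agent.S56lib.Euler CategoryTheory Function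

variable (S : Finset Nat.Primes) {p : ℕ} [hp : Fact p.Prime] {Γ : Type} [Group Γ] [Finite Γ]
  {π : GQ →* Γ} (hπ : Surjective π) (hker : (basisS S).IsOpen π.ker)
  (hp2 : p ≠ 2) (hpS : (⟨p, hp.out⟩ : Nat.Primes) ∈ S)
  (hμ : ∀ u ∈ π.ker, ∀ μ : Qbar, μ ^ p = 1 → u μ = μ)

/-! ### `T¹(J_Γ) = 0` -/

include hker in
theorem T1J_eq_zero (x : Hsm (basisS S) (funG π (JSrep S)) 1) : x = 0 := by
  refine (SJ S π hker).sh_H1_injective x fun q => ?_
  apply Csm.coarsen_H1_injective (coarser_basisLoc S q.1) (FY π q.1)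
  rw [map_zero]
  refine (CC S π hker q.1).sh_H1_injective _ fun c => ?_
  exact PT9.H2V.H1_loc_eq_zero q.1 (piq' π q.1).ker (isOpen_ker_piq' S π hker q.1) _

include hker in
theorem subsingleton_T1J : Subsingleton (HMod π (basisS S) (JSrep S) 1) := by
  refine ⟨fun x y => ?_⟩
  apply (HMod.fn π (basisS S) (JSrep S) 1).injective
  rw [T1J_eq_zero S hker (HMod.fn π (basisS S) (JSrep S) 1 x),
    T1J_eq_zero S hker (HMod.fn π (basisS S) (JSrep S) 1 y)]

/-! ### The sequence `0 → E_S → J_S → C_S → 0` -/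

include hker hpS in
theorem sesEJC : Cpx.IsSES (Csm.map (basisS S) (funG.map π (iES S)))
    (Csm.map (basisS S) (funG.map π (pCS S))) :=
  funG.isSES hker (iES S) (pCS S) (jsCoind S).sm (iES_injective S ⟨_, hpS⟩) (pCS_surjective S)
    (pCS_eq_zero_iff S)

/-! ### `T¹(C_Γ)` is uniquely `p`-divisible -/

include hμ in
lemma fixes_zeta : ∀ v ∈ π.ker, v (zetaQbar p) = zetaQbar p := fun v hv =>
  hμ v hv _ (zetaQbar_spec p).pow_eq_one

include hπ hker hp2 hpS hμ in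
theorem T1C_torsion_free (x : HMod π (basisS S) (CSrep S) 1) (hx : p • x = 0) : x = 0 := by
  apply (HMod.fn π (basisS S) (CSrep S) 1).injective
  apply shV_injective hπ hker (isSm_CSrep S) 1 (by omega)
  rw [map_zero, map_zero]
  apply PT9.H2V.H1_CSrep_torsion_free S hp2 hpS (zetaQbar_spec p) π.ker hker (fixes_zeta hμ)
  rw [← map_nsmul, ← map_nsmul, hx, map_zero, map_zero]

include hπ hker hp2 hpS hμ in
theorem T1C_pdiv (x : HMod π (basisS S) (CSrep S) 1) : ∃ y, p • y = x :=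
  HMod.mulP_surjective_of_HV hπ hker (isSm_CSrep S) p 1 (by omega)
    (fun y => PT9.H2V.H1_CSrep_pdiv S hp2 hpS (zetaQbar_spec p) π.ker hker (fixes_zeta hμ) y) x

/-! ### `T²(C_Γ)[p]` is `𝔽_p` with trivial action -/

include hπ hker hp2 hpS hμ in
theorem card_tors_T2C : Nat.card (tors (ZG Γ) p (HMod π (basisS S) (CSrep S) 2)) = p := by
  have h := PT9.H2V.card_pTor_H2_CSrep S hp2 hpS (zetaQbar_spec p) π.ker hker (fixes_zeta hμ)
  rw [HMod.card_tors hπ hker (isSm_CSrep S) p 2 le_rfl]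
  exact (Nat.card_congr (Equiv.subtypeEquivRight (fun _ => Iff.rfl))).trans h

include hπ hker hp2 hpS hμ in
theorem gsm_tors_T2C (δ : Γ) (t : HMod π (basisS S) (CSrep S) 2) (ht : p • t = 0) :
    gsm δ t = t := by
  obtain ⟨z, -, hz⟩ := PT9.H2V.H2_CSrep_exists_res S hp2 hpS (zetaQbar_spec p) π.ker hker
    (fixes_zeta hμ)
    (shV hπ hker (isSm_CSrep S) 2 (HMod.fn π (basisS S) (CSrep S) 2 t))
    ⟨1, by rw [pow_one, ← map_nsmul, ← map_nsmul, ht, map_zero, map_zero]⟩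
  exact HMod.gsm_eq_of_res hπ hker (isSm_CSrep S) 2 (by omega) t z hz.symm δ

include hπ hker hp2 hpS hμ in
theorem nonempty_torsC_equiv :
    Nonempty (tors (ZG Γ) p (HMod π (basisS S) (CSrep S) 2) ≃ₗ[ZG Γ]
      PermMod Γ (ZMod p) (Γ ⧸ (⊤ : Subgroup Γ))) :=
  exists_equiv_trivMod _ (card_tors_T2C S hπ hker hp2 hpS hμ) fun δ t =>
    Subtype.ext (gsm_tors_T2C S hπ hker hp2 hpS hμ δ t.1 (mem_tors.1 t.2))

/-! ### The Kummer sequence: `T³(μ_Γ) = 0` -/

/-- the Kummer sequence of `E_S` -/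
def kumE : KummerData (basisS S) (torRep p (ESrep S)) (ESrep S) p :=
  KummerData.ofTor (basisS S) (isSm_ESrep S) (ESrep_divisible S hpS)

include hpS in
lemma finite_torRep_ES : Finite (torRep p (ESrep S)) := by
  obtain ⟨e⟩ := exists_torRep_equiv (zetaES S hpS) (zetaES_smul S hpS) (zetaES_ne_zero S hpS)
    (ESrep_torsion S hpS)
  exact Finite.of_injective e e.injective

include hker hp2 hpS in
theorem T3mu_eq_zero (x : Hsm (basisS S) (funG π (torRep p (ESrep S))) 3) : x = 0 := by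
  haveI := finite_torRep_ES S hpS
  haveI : Finite (funG π (torRep p (ESrep S))) :=
    inferInstanceAs (Finite (Γ → torRep p (ESrep S)))
  exact H3_global_eq_zero S hp2 hpS (funG π (torRep p (ESrep S)))
    (funG.isSm π _ (basisS S) hker (torRep.isSm (basisS S) (isSm_ESrep S)))
    (fun a => funext fun y => torRep.nsmul_eq_zero _) x

include hker hp2 hpS in
theorem T3mu_eq_zero' (x : HMod π (basisS S) (torRep p (ESrep S)) 3) : x = 0 := by
  apply (HMod.fn π (basisS S) (torRep p (ESrep S)) 3).injective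
  rw [T3mu_eq_zero S hker hp2 hpS (HMod.fn π (basisS S) (torRep p (ESrep S)) 3 x), map_zero]

include hker hp2 hpS in
/-- **`T²(E_Γ)` is `p`-divisible** -/
theorem T2E_pdiv (x : HMod π (basisS S) (ESrep S) 2) : ∃ y, p • y = x := by
  have hS := (kumE S hpS).ses π hker
  obtain ⟨y, hy⟩ := (HMod.exact_right hS 2 x).1 (T3mu_eq_zero' S hker hp2 hpS _)
  rw [HMod.map_pMul] at hy
  exact ⟨y, hy⟩

include hker hp2 hpS in
/-- **`T²(E_Γ)` is `p`-divisible** -/
theorem mulP_T2E_surjective : Surjective (mulP (ZG Γ) p (HMod π (basisS S) (ESrep S) 2)) :=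
  fun x => T2E_pdiv S hker hp2 hpS x

include hker hp2 hpS in
/-- **`T³(E_Γ)` has no `p`-torsion** -/
theorem T3E_torsion_free (x : HMod π (basisS S) (ESrep S) 3) (hx : p • x = 0) : x = 0 := by
  have hS := (kumE S hpS).ses π hker
  obtain ⟨y, hy⟩ := (HMod.exact_mid hS 3 x).1 (by rw [HMod.map_pMul, hx])
  rw [← hy, T3mu_eq_zero' S hker hp2 hpS y, map_zero]

/-! ### The main theorem -/

include hπ hker hp2 hpS hμ in
theorem globalH2_tors :
    PGood (ZG Γ) p (HMod π (basisS S) (ESrep S) 2) ∧ ∀ ψ : AddInvariant (ZG Γ) p,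
      delta (ZG Γ) p (HMod π (basisS S) (ESrep S) 2) ψ =
        ψ.val (tors (ZG Γ) p (HMod π (basisS S) (JSrep S) 2)) -
          ψ.val (tors (ZG Γ) p (HMod π (basisS S) (CSrep S) 2)) := by
  have hS := sesEJC S (π := π) hker hpS
  haveI : Finite (tors (ZG Γ) p (HMod π (basisS S) (JSrep S) 2)) :=
    Finite.of_injective _ (torsJIso S π hker hp2 hpS).injective
  refine delta_of_les (HMod.δ hS 1) (HMod.map π (basisS S) (iES S) 2)
    (HMod.map π (basisS S) (pCS S) 2) (HMod.δ hS 2) ?_ (HMod.exact_left hS 1) (HMod.exact_mid hS 2)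
    (HMod.exact_right hS 2) (T1C_torsion_free S hπ hker hp2 hpS hμ)
    (T1C_pdiv S hπ hker hp2 hpS hμ) (T2E_pdiv S hker hp2 hpS) (T3E_torsion_free S hker hp2 hpS)
  rw [injective_iff_map_eq_zero]
  intro x hx
  obtain ⟨y, rfl⟩ := (HMod.exact_right hS 1 x).1 hx
  haveI := subsingleton_T1J S (π := π) hker
  rw [Subsingleton.elim y 0, map_zero]

include hπ hker hp2 hpS hμ in
/-- **the global `H²`-end**: `δ_ψ(T²(E_Γ)) = Σ_{q∈S} ψ(𝔽_p[Γ/D_q]) − ψ(𝔽_p)` -/
theorem globalH2 :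
    PGood (ZG Γ) p (HMod π (basisS S) (ESrep S) 2) ∧ ∀ ψ : AddInvariant (ZG Γ) p,
      delta (ZG Γ) p (HMod π (basisS S) (ESrep S) 2) ψ =
        ∑ q : S, ψ.val (PermMod Γ (ZMod p) (Γ ⧸ (π.comp (rloc q.1)).range)) -
          ψ.val (PermMod Γ (ZMod p) (Γ ⧸ (⊤ : Subgroup Γ))) := by
  obtain ⟨h1, h2⟩ := globalH2_tors S hπ hker hp2 hpS hμ
  refine ⟨h1, fun ψ => ?_⟩
  obtain ⟨eC⟩ := nonempty_torsC_equiv S hπ hker hp2 hpS hμ
  haveI : IsPFin p (tors (ZG Γ) p (HMod π (basisS S) (JSrep S) 2)) :=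
    IsPFin.of_linearEquiv (torsJIso S π hker hp2 hpS).symm
  haveI : IsPFin p (tors (ZG Γ) p (HMod π (basisS S) (CSrep S) 2)) :=
    IsPFin.of_linearEquiv eC.symm
  rw [h2 ψ, ψ.iso _ _ (torsJIso S π hker hp2 hpS), ψ.iso _ _ eC,
    val_permMod_sigma (fun q : S => Γ ⧸ Dq π q.1) ψ]

end Fermat.Agent.S56lib.PT9.T2G
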