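/-
S56 marathon, WP5 of the Euler characteristic block (helper8), file 1: **`Fun(Γ, ·)` of a smooth
coinduction**.  If `J` is the smooth coinduction of the `Y i` along `r i : D i →* G`, then `J_Γ = Fun(Γ, J)`
(helper1's `funG π J`) is the smooth coinduction of the `Fun(Γ, Y i)` (`funG (π.comp (r i)) (Y i)`), and the
Shapiro maps commute with the right translations by `Γ`.
-/
import Mathlib
import Fermat.Agent.S56lib.Euler.CohMod

set_option autoImplicit false
set_option linter.unusedSectionVars false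

noncomputable section

namespace Fermat.Agent.S56lib.PT9.T2G

open Fermat.Agent.S55lib Fermat.Agent.S56lib.Euler CategoryTheory Function

variable {k G Γ : Type} [CommRing k] [Group G] [Group Γ] (π : G →* Γ) {𝒰 : OpenBasis G} {I : Type}
  {D : I → Type} [∀ i, Group (D i)] {r : ∀ i, D i →* G} {Y : ∀ i, Rep.{0} k (D i)}
  {J : Rep.{0} k G} (S : SmCoind 𝒰 D r Y J)

/-- evaluation `Fun(Γ, J) → Fun(Γ, Y i)` -/
def funEv (i : I) : Rep.res (r i) (funG π J) ⟶ funG (π.comp (r i)) (Y i) :=
  Rep.ofHom
    { toLinearMap :=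
        { toFun := fun F x => (S.ev i).hom ((F : Γ → J) x)
          map_add' := fun F F' => by
            funext x
            exact map_add (S.ev i).hom _ _
          map_smul' := fun c F => by
            funext x
            exact map_smul (S.ev i).hom c _ }
      isIntertwining' := fun d => by
        apply LinearMap.ext
        intro F
        funext x
        exact Rep.hom_comm_apply (S.ev i) d ((F : Γ → J) ((π (r i d))⁻¹ * x)) }

@[simp] lemma funEv_apply (i : I) (F : Γ → J) (x : Γ) :
    ((funEv π S i).hom (F : Rep.res (r i) (funG π J)) : Γ → Y i) x = (S.ev i).hom (F x) := rfl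

/-- **`Fun(Γ, J)` is the smooth coinduction of the `Fun(Γ, Y i)`** -/
def funCoind [Finite Γ] (hker : 𝒰.IsOpen π.ker) :
    SmCoind 𝒰 D r (fun i => funG (π.comp (r i)) (Y i)) (funG π J) where
  ev := funEv π S
  sm := funG.isSm π J 𝒰 hker S.sm
  inj := by
    intro (F : Γ → J) h
    funext y
    refine S.inj _ fun i g => ?_
    have h1 := congrFun (h i g) (π g * y)
    have h2 : (S.ev i).hom (J.ρ g (F ((π g)⁻¹ * (π g * y)))) = 0 := h1
    rwa [inv_mul_cancel_left] at h2
  surj := by
    intro Φ hΦ hU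
    obtain ⟨U, hU, hΦU⟩ := hU
    obtain ⟨U₁, hU₁, hU₁le⟩ := hker
    obtain ⟨W, hW, hle⟩ := 𝒰.directed U hU U₁ hU₁
    have hΦ' : ∀ i d g (x : Γ), (Φ i (r i d * g) : Γ → Y i) x =
        (Y i).ρ d ((Φ i g : Γ → Y i) ((π (r i d))⁻¹ * x)) := fun i d g x =>
      congrFun (hΦ i d g) x
    let F : Γ → J := fun y => S.ofFn (fun i g => (Φ i g : Γ → Y i) (π g * y))
      (fun i d g => by
        show (Φ i (r i d * g) : Γ → Y i) (π (r i d * g) * y) = _
        rw [hΦ', map_mul, mul_assoc, inv_mul_cancel_left])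
      ⟨W, hW, fun i g u hu => by
        show (Φ i (g * u) : Γ → Y i) (π (g * u) * y) = (Φ i g : Γ → Y i) (π g * y)
        have hk : π u = 1 := MonoidHom.mem_ker.1 (hU₁le ((hle.trans inf_le_right) hu))
        rw [hΦU i g u ((hle.trans inf_le_left) hu), map_mul, hk, mul_one]⟩
    have hF : ∀ y i g, S.fn i (F y) g = (Φ i g : Γ → Y i) (π g * y) := fun y i g =>
      S.fn_ofFn _ _ _ i g
    refine ⟨F, fun i g => ?_⟩
    funext x
    show (S.ev i).hom (J.ρ g (F ((π g)⁻¹ * x))) = (Φ i g : Γ → Y i) x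
    have := hF ((π g)⁻¹ * x) i g
    rw [SmCoind.fn_def] at this
    rw [this, mul_inv_cancel_left]

/-- the Shapiro maps commute with the right translations -/
lemma sh_funCoind_rt [Finite Γ] (hker : 𝒰.IsOpen π.ker) (δ : Γ) (i : I) (n : ℕ)
    (x : Hsm 𝒰 (funG π J) n) :
    ((funCoind π S hker).sh i).mapH n (cohMap 𝒰 (funG.rt π J δ) n x) =
      cohMap (𝒰.comap (r i)) (funG.rt (π.comp (r i)) (Y i) δ) n
        (((funCoind π S hker).sh i).mapH n x) :=
  (funCoind π S hker).sh_natural (funCoind π S hker) (funG.rt π J δ)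
    (fun i => funG.rt (π.comp (r i)) (Y i) δ) (fun _ _ => rfl) i n x

end Fermat.Agent.S56lib.PT9.T2G
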