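/-
S56 marathon, WP5 of the Euler characteristic block (helper8), file 7: **`H³(G_S, A) = 0`** for every finite
smooth `G_S`-module `A` killed by `p` (`p` odd, `p ∈ S`), in `Rep ℤ G_ℚ` form (`H3_global_eq_zero`); this is
`PT9.h3_eq_zero` transported along `toIntRep (zmodRep A) ≅ A`.
-/
import Mathlib
import Fermat.Agent.S56lib.PT9.H3Final
import Fermat.Agent.S56lib.Euler.CohMod

set_option autoImplicit false
set_option linter.unusedSectionVars false
set_option linter.style.haveILetI false

noncomputable section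

namespace Fermat.Agent.S56lib.PT9.T2G

open Fermat.Agent.S55lib Fermat.Agent.S55lib.CFDual Fermat.Agent.S56lib.Euler CategoryTheory Function

/-- a morphism of representations from an additive, `k`-homogeneous, equivariant map -/
def homOfAdd {k G : Type} [CommRing k] [Group G] {X Y : Rep.{0} k G} (f : X →+ Y)
    (hlin : ∀ (c : k) (x : X), f (c • x) = c • f x) (hf : ∀ g x, f (X.ρ g x) = Y.ρ g (f x)) :
    X ⟶ Y :=
  Rep.ofHom
    { toLinearMap :=
        { toFun := f
          map_add' := map_add f
          map_smul' := hlin }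
      isIntertwining' := fun g => LinearMap.ext (hf g) }

@[simp] lemma homOfAdd_apply {k G : Type} [CommRing k] [Group G] {X Y : Rep.{0} k G} (f : X →+ Y)
    (hlin : ∀ (c : k) (x : X), f (c • x) = c • f x) (hf : ∀ g x, f (X.ρ g x) = Y.ρ g (f x)) (x : X) :
    (homOfAdd f hlin hf).hom x = f x := rfl

section ZModRep

variable {G : Type} [Group G] {p : ℕ} [hp : Fact p.Prime] (A : Rep.{0} ℤ G)
  (hpA : ∀ a : A, p • a = 0)

/-- the `𝔽_p[G]`-module underlying a `ℤ[G]`-module killed by `p` -/
def zmodRep : Rep.{0} (ZMod p) G :=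
  letI : Module (ZMod p) A := AddCommGroup.zmodModule hpA
  Rep.of (k := ZMod p) (G := G) (X := A)
    { toFun := fun g => AddMonoidHom.toZModLinearMap p
        ({ toFun := fun a => A.ρ g a
           map_zero' := map_zero _
           map_add' := map_add _ } : A →+ A)
      map_one' := by
        apply LinearMap.ext
        intro a
        show A.ρ 1 a = a
        rw [map_one]
        rfl
      map_mul' := fun g h => by
        apply LinearMap.ext
        intro a
        show A.ρ (g * h) a = A.ρ g (A.ρ h a)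
        rw [map_mul]
        rfl }

/-- `toIntRep (zmodRep A) ⟶ A`, the identity -/
def zmodRepTo : toIntRep (zmodRep A hpA) ⟶ A :=
  homOfAdd (k := ℤ) (X := toIntRep (zmodRep A hpA)) (Y := A)
    { toFun := fun a => a
      map_zero' := rfl
      map_add' := fun _ _ => rfl }
    (fun c x => addLin_int (toIntRep (zmodRep A hpA)) A _ c x) (fun _ _ => rfl)

lemma zmodRepTo_apply (a : A) : (zmodRepTo A hpA).hom a = a := rfl

lemma zmodRepTo_bijective : Bijective (zmodRepTo A hpA).hom :=
  ⟨fun _ _ h => h, fun a => ⟨a, rfl⟩⟩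

end ZModRep

variable (S : Finset Nat.Primes) {p : ℕ} [hp : Fact p.Prime]

/-- **`H³(G_S, A) = 0`** for finite smooth `A` killed by `p` -/
theorem H3_global_eq_zero (hp2 : p ≠ 2) (hpS : (⟨p, hp.out⟩ : Nat.Primes) ∈ S)
    (A : Rep.{0} ℤ GQ) [Finite A] (hA : IsSm (basisS S) A) (hpA : ∀ a : A, p • a = 0)
    (x : Hsm (basisS S) A 3) : x = 0 := by
  haveI : Finite (zmodRep A hpA) := inferInstanceAs (Finite A)
  haveI : FiniteDimensional (ZMod p) (zmodRep A hpA) := Module.Finite.of_finite
  have hM : Sm.IsSmooth (MonoidHom.id GQ) (LevelClass.unr S) (zmodRep A hpA) := by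
    have h := isSm_ofLevel_iff.1 hA
    exact h
  obtain ⟨y, rfl⟩ := (Cpx.Hom.mapH_bijective_of_bijective _
    (Csm.map_bijective (basisS S) _ (zmodRepTo_bijective A hpA)) 3).2 x
  rw [PT9.h3_eq_zero S hpS (zmodRep A hpA) hM hp2 y, map_zero]

end Fermat.Agent.S56lib.PT9.T2G
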